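import Mathlib.AlgebraicGeometry.EllipticCurve.Affine.Point
import Mathlib.AlgebraicGeometry.EllipticCurve.DivisionPolynomial.Degree
import Mathlib.FieldTheory.IsAlgClosed.Basic
import Mathlib.Tactic

/-!
# Points of order 3 and 5

Duplication formula and the points of order 3 and 5 of a Weierstrass curve over an algebraically
closed field of characteristic zero.
-/

set_option autoImplicit false

open Polynomial
open WeierstrassCurve WeierstrassCurve.Affine

namespace Fermat.Agent.ThreeFive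

universe u

variable {F : Type u} [Field F]

/-- `ψ₂²` as a function of the `b`-invariants. -/
def fB (b2 b4 b6 x : F) : F := 4 * x ^ 3 + b2 * x ^ 2 + 2 * b4 * x + b6

/-- `φ₂` as a function of the `b`-invariants. -/
def phiB (b4 b6 b8 x : F) : F := x ^ 4 - b4 * x ^ 2 - 2 * b6 * x - b8

/-- `ψ₃` as a function of the `b`-invariants. -/
def psi3B (b2 b4 b6 b8 x : F) : F :=
  3 * x ^ 4 + b2 * x ^ 3 + 3 * b4 * x ^ 2 + 3 * b6 * x + b8

/-- `ψ₄ / ψ₂` as a function of the `b`-invariants. -/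
def pre4B (b2 b4 b6 b8 x : F) : F :=
  2 * x ^ 6 + b2 * x ^ 5 + 5 * b4 * x ^ 4 + 10 * b6 * x ^ 3 + 10 * b8 * x ^ 2 +
    (b2 * b8 - b4 * b6) * x + (b4 * b8 - b6 ^ 2)

/-- `ψ₅` as a function of the `b`-invariants. -/
def psi5B (b2 b4 b6 b8 x : F) : F :=
  pre4B b2 b4 b6 b8 x * fB b2 b4 b6 x ^ 2 - psi3B b2 b4 b6 b8 x ^ 3

variable (V : Affine F)

/-- `ψ₂²` of a curve. -/
def fV (x : F) : F := fB V.b₂ V.b₄ V.b₆ x

/-- `φ₂` of a curve. -/
def phiV (x : F) : F := phiB V.b₄ V.b₆ V.b₈ x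

lemma psi3B_eq (x : F) : psi3B V.b₂ V.b₄ V.b₆ V.b₈ x = x * fV V x - phiV V x := by
  simp only [psi3B, fV, fB, phiV, phiB]; ring

/-- `psi3B` is `Ψ₃`. -/
lemma eval_Ψ₃ (x : F) : V.Ψ₃.eval x = psi3B V.b₂ V.b₄ V.b₆ V.b₈ x := by
  simp [WeierstrassCurve.Ψ₃, psi3B]

/-- `psi5B` is the fifth division polynomial. -/
lemma eval_preΨ'_five (x : F) : (V.preΨ' 5).eval x = psi5B V.b₂ V.b₄ V.b₆ V.b₈ x := by
  rw [show 5 = 2 * (0 + 2) + 1 from rfl, WeierstrassCurve.preΨ'_odd, if_pos Even.zero,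
    if_pos Even.zero]
  simp [psi5B, pre4B, psi3B, fB, WeierstrassCurve.Ψ₃, WeierstrassCurve.preΨ₄,
    WeierstrassCurve.Ψ₂Sq]

lemma equation_fV {x y : F} (h : V.Equation x y) : (y - V.negY x y) ^ 2 = fV V x := by
  rw [equation_iff] at h
  simp only [fV, fB, negY, WeierstrassCurve.b₂, WeierstrassCurve.b₄, WeierstrassCurve.b₆]
  linear_combination 4 * h

/-- The numerator of the slope of the tangent. -/
def numV (x y : F) : F := 3 * x ^ 2 + 2 * V.a₂ * x + V.a₄ - V.a₁ * y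

lemma phiV_eq {x y : F} (h : V.Equation x y) :
    phiV V x = numV V x y ^ 2 + V.a₁ * numV V x y * (y - V.negY x y)
      - (V.a₂ + 2 * x) * fV V x := by
  rw [equation_iff] at h
  simp only [phiV, phiB, fV, fB, numV, negY, WeierstrassCurve.b₂, WeierstrassCurve.b₄,
    WeierstrassCurve.b₆, WeierstrassCurve.b₈]
  linear_combination V.a₁ ^ 2 * h

variable [DecidableEq F]

lemma sub_negY_ne_zero {x y : F} {h : V.Nonsingular x y}
    (h2 : Point.some x y h + Point.some x y h ≠ 0) : y - V.negY x y ≠ 0 := fun e =>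
  h2 (Point.add_self_of_Y_eq (sub_eq_zero.mp e))

lemma fV_ne_zero {x y : F} {h : V.Nonsingular x y}
    (h2 : Point.some x y h + Point.some x y h ≠ 0) : fV V x ≠ 0 := by
  rw [← equation_fV V h.1]
  exact pow_ne_zero 2 (sub_negY_ne_zero V h2)

lemma add_self_ne_zero {x y : F} (h : V.Nonsingular x y) (hf : fV V x ≠ 0) :
    Point.some x y h + Point.some x y h ≠ 0 := by
  intro e
  apply hf
  rw [← equation_fV V h.1]
  have hy : y = V.negY x y := by
    by_contra hy
    rw [Point.add_self_of_Y_ne hy] at e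
    exact Point.some_ne_zero _ e
  rw [sub_eq_zero.mpr hy]
  ring

lemma exists_double {x y : F} {h : V.Nonsingular x y}
    (h2 : Point.some x y h + Point.some x y h ≠ 0) :
    ∃ (x' y' : F) (h' : V.Nonsingular x' y'),
      Point.some x y h + Point.some x y h = Point.some x' y' h' ∧ x' * fV V x = phiV V x := by
  have hd := sub_negY_ne_zero V h2
  have hy : y ≠ V.negY x y := fun e => hd (sub_eq_zero.mpr e)
  refine ⟨_, _, _, Point.add_self_of_Y_ne hy, ?_⟩
  rw [addX, slope_of_Y_ne rfl hy, phiV_eq V h.1, ← equation_fV V h.1, numV]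
  field_simp
  ring

omit [DecidableEq F] in
lemma exists_point [IsAlgClosed F] (hΔ : V.Δ ≠ 0) (x : F) : ∃ y, V.Nonsingular x y := by
  obtain ⟨y, hy⟩ := IsAlgClosed.exists_root
    (C 1 * X ^ 2 + C (V.a₁ * x + V.a₃) * X
      + C (-(x ^ 3 + V.a₂ * x ^ 2 + V.a₄ * x + V.a₆)) : F[X])
    (by rw [degree_quadratic one_ne_zero]; decide)
  refine ⟨y, (equation_iff_nonsingular_of_Δ_ne_zero hΔ).mp ?_⟩
  rw [equation_iff]
  simp only [IsRoot.def, eval_add, eval_mul, eval_C, eval_pow, eval_X] at hy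
  linear_combination hy

omit [DecidableEq F] in
lemma fV_phiV_coprime [IsAlgClosed F] (hΔ : V.Δ ≠ 0) {x : F} (hf : fV V x = 0) :
    phiV V x ≠ 0 := by
  obtain ⟨y, hy⟩ := exists_point V hΔ x
  have hd : y - V.negY x y = 0 := by
    have := equation_fV V hy.1
    rw [hf] at this
    simpa using this
  rw [phiV_eq V hy.1, hd, hf]
  have hN : numV V x y ≠ 0 := by
    rcases ((nonsingular_iff' x y).mp hy).2 with e | e
    · intro e'; apply e; simp only [numV] at e'; linear_combination -e'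
    · exact absurd (by rw [negY] at hd; linear_combination hd) e
  simpa using hN

omit [DecidableEq F] in
/-- The polynomial identity relating the fourth multiple with `ψ₃` and `ψ₅`. -/
lemma four_identity [CharZero F] {b2 b4 b6 b8 : F} (hb : 4 * b8 = b2 * b6 - b4 ^ 2) (x : F) :
    x * fB b2 b4 b6 x * (4 * phiB b4 b6 b8 x ^ 3 + b2 * phiB b4 b6 b8 x ^ 2 * fB b2 b4 b6 x
        + 2 * b4 * phiB b4 b6 b8 x * fB b2 b4 b6 x ^ 2 + b6 * fB b2 b4 b6 x ^ 3)
      - (phiB b4 b6 b8 x ^ 4 - b4 * phiB b4 b6 b8 x ^ 2 * fB b2 b4 b6 x ^ 2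
        - 2 * b6 * phiB b4 b6 b8 x * fB b2 b4 b6 x ^ 3 - b8 * fB b2 b4 b6 x ^ 4)
      = psi3B b2 b4 b6 b8 x * psi5B b2 b4 b6 b8 x := by
  have : b8 = (b2 * b6 - b4 ^ 2) / 4 := by field_simp; linear_combination hb
  subst this
  simp only [fB, phiB, psi3B, psi5B, pre4B]
  ring

omit [DecidableEq F] in
/-- At a root of `ψ₃`, `ψ₄/ψ₂ = -ψ₂⁴`. -/
lemma pre4_mod_psi3 [CharZero F] {b2 b4 b6 b8 : F} (hb : 4 * b8 = b2 * b6 - b4 ^ 2) (x : F) :
    pre4B b2 b4 b6 b8 x + fB b2 b4 b6 x ^ 2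
      = psi3B b2 b4 b6 b8 x * (6 * x ^ 2 + b2 * x + b4) := by
  have : b8 = (b2 * b6 - b4 ^ 2) / 4 := by field_simp; linear_combination hb
  subst this
  simp only [fB, psi3B, pre4B]
  ring

variable [CharZero F]

omit [DecidableEq F] in
lemma quad_eq_psi {x w : F} (hw : w * fV V x = phiV V x) :
    fV V x ^ 4 * (x * fV V w - phiV V w)
      = psi3B V.b₂ V.b₄ V.b₆ V.b₈ x * psi5B V.b₂ V.b₄ V.b₆ V.b₈ x := by
  rw [← four_identity V.b_relation x]
  have e : phiB V.b₄ V.b₆ V.b₈ x = w * fV V x := hw.symm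
  rw [e]
  simp only [fV, phiV, fB, phiB]
  ring

omit [CharZero F] in
/-- The abscissa of a point of order three is a root of `ψ₃`. -/
lemma psi3_of_torsion {P : V.Point} (hP : P ≠ 0) (h3 : (3 : ℤ) • P = 0) :
    ∃ x y h, P = Point.some x y h ∧ psi3B V.b₂ V.b₄ V.b₆ V.b₈ x = 0 := by
  rcases P with _ | ⟨x, y, h⟩
  · exact absurd rfl hP
  refine ⟨x, y, h, rfl, ?_⟩
  have hneg : Point.some x y h + Point.some x y h = -Point.some x y h := by
    rw [eq_neg_iff_add_eq_zero, ← h3]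
    abel
  have h2 : Point.some x y h + Point.some x y h ≠ 0 := by
    rw [hneg]; simp
  obtain ⟨x', y', h', he, hx'⟩ := exists_double V h2
  rw [he] at hneg
  have hxx : x' = x := Point.X_eq_iff.mpr (Or.inr hneg)
  rw [psi3B_eq, ← hx', hxx, sub_self]

omit [CharZero F] in
/-- A point of order 5 together with its double. -/
lemma double_of_five_torsion {P : V.Point} (hP : P ≠ 0) (h5 : (5 : ℤ) • P = 0) :
    ∃ x y h x' y' h', P = Point.some x y h ∧ P + P = Point.some x' y' h' ∧ fV V x ≠ 0 ∧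
      x' * fV V x = phiV V x ∧ x * fV V x' = phiV V x' ∧ x ≠ x' := by
  rcases P with _ | ⟨x, y, h⟩
  · exact absurd rfl hP
  have key : ∀ P : V.Point, P ≠ 0 → (5 : ℤ) • P = 0 →
      P + P ≠ 0 ∧ (P + P) + (P + P) = -P ∧ P + P ≠ P ∧ P + P ≠ -P := by
    intro P hP h5
    refine ⟨fun e => hP ?_, ?_, fun e => hP ?_, fun e => hP ?_⟩
    · have : P = (5 : ℤ) • P - ((P + P) + (P + P)) := by abel
      rw [this, h5, e]; simp
    · rw [eq_neg_iff_add_eq_zero, ← h5]; abel
    · simpa using e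
    · have e3 : (P + P) + P = 0 := eq_neg_iff_add_eq_zero.mp e
      have : P = ((P + P) + P) + ((P + P) + P) - (5 : ℤ) • P := by abel
      rw [this, h5, e3]; simp
  obtain ⟨k1, k2, k3, k4⟩ := key _ hP h5
  obtain ⟨x', y', h', he, hx'⟩ := exists_double V k1
  rw [he] at k2 k3 k4
  have k2' : Point.some x' y' h' + Point.some x' y' h' ≠ 0 := by
    rw [k2]; simp
  obtain ⟨x'', y'', h'', he', hx''⟩ := exists_double V k2'
  rw [he'] at k2
  have hxx : x'' = x := Point.X_eq_iff.mpr (Or.inr k2)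
  refine ⟨x, y, h, x', y', h', rfl, he, fV_ne_zero V k1, hx', hxx ▸ hx'', fun e => ?_⟩
  rcases (Point.X_eq_iff (h₁ := h') (h₂ := h)).mp e.symm with e' | e'
  · exact k3 e'
  · exact k4 e'

/-- The abscissa of a point of order five is a root of `ψ₃ ψ₅`. -/
lemma psi35_of_torsion {P : V.Point} (hP : P ≠ 0) (h5 : (5 : ℤ) • P = 0) :
    ∃ x y h, P = Point.some x y h ∧
      psi3B V.b₂ V.b₄ V.b₆ V.b₈ x * psi5B V.b₂ V.b₄ V.b₆ V.b₈ x = 0 := by
  obtain ⟨x, y, h, x', y', h', e, -, -, e1, e2, -⟩ := double_of_five_torsion V hP h5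
  exact ⟨x, y, h, e, by rw [← quad_eq_psi V e1, e2, sub_self, mul_zero]⟩

/-- There is a point of order three. -/
lemma exists_three_torsion [IsAlgClosed F] (hΔ : V.Δ ≠ 0) :
    ∃ P : V.Point, P ≠ 0 ∧ (3 : ℤ) • P = 0 := by
  obtain ⟨x, hx⟩ := IsAlgClosed.exists_root V.Ψ₃ (by
    rw [degree_eq_natDegree (V.Ψ₃_ne_zero three_ne_zero), V.natDegree_Ψ₃ three_ne_zero]
    decide)
  rw [IsRoot.def, eval_Ψ₃, psi3B_eq, sub_eq_zero] at hx
  obtain ⟨y, h⟩ := exists_point V hΔ x
  refine ⟨Point.some x y h, Point.some_ne_zero h, ?_⟩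
  have hf : fV V x ≠ 0 := fun e => fV_phiV_coprime V hΔ e (by rw [← hx, e, mul_zero])
  have h2 := add_self_ne_zero V h hf
  obtain ⟨x', y', h', he, hx'⟩ := exists_double V h2
  have hxx : x' = x := mul_right_cancel₀ hf (hx'.trans hx.symm)
  rcases (Point.X_eq_iff (h₁ := h') (h₂ := h)).mp hxx with e' | e'
  · rw [e'] at he
    simp at he
  · rw [e'] at he
    have := eq_neg_iff_add_eq_zero.mp he
    rw [← this]
    abel

/-- There is a point of order five. -/
lemma exists_five_torsion [IsAlgClosed F] (hΔ : V.Δ ≠ 0) :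
    ∃ P : V.Point, P ≠ 0 ∧ (5 : ℤ) • P = 0 := by
  have h50 : ((5 : ℕ) : F) ≠ 0 := by exact_mod_cast (by norm_num : (5 : ℕ) ≠ 0)
  obtain ⟨x, hx⟩ := IsAlgClosed.exists_root (V.preΨ' 5) (by
    rw [degree_eq_natDegree (V.preΨ'_ne_zero h50), V.natDegree_preΨ' h50]
    decide)
  rw [IsRoot.def, eval_preΨ'_five] at hx
  have hnc : psi3B V.b₂ V.b₄ V.b₆ V.b₈ x ≠ 0 := by
    intro h3
    have h4 := pre4_mod_psi3 V.b_relation x
    rw [h3, zero_mul] at h4
    have hf : fV V x = 0 := by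
      have : fB V.b₂ V.b₄ V.b₆ x ^ 4 = 0 := by
        rw [psi5B, h3] at hx
        linear_combination fB V.b₂ V.b₄ V.b₆ x ^ 2 * h4 - hx
      simpa [fV] using this
    apply fV_phiV_coprime V hΔ hf
    have := psi3B_eq V x
    rw [h3, hf] at this
    simpa using this.symm
  have hf : fV V x ≠ 0 := by
    intro e
    apply hnc
    have e' : fB V.b₂ V.b₄ V.b₆ x = 0 := e
    rw [psi5B, e'] at hx
    simpa using hx
  obtain ⟨y, h⟩ := exists_point V hΔ x
  refine ⟨Point.some x y h, Point.some_ne_zero h, ?_⟩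
  have h2 := add_self_ne_zero V h hf
  obtain ⟨w, v, h', he, hw⟩ := exists_double V h2
  have hq : x * fV V w = phiV V w := by
    have := quad_eq_psi V hw
    rw [hx, mul_zero] at this
    exact sub_eq_zero.mp ((mul_eq_zero.mp this).resolve_left (pow_ne_zero 4 hf))
  have hfw : fV V w ≠ 0 := fun e => fV_phiV_coprime V hΔ e (by rw [← hq, e, mul_zero])
  have h4 := add_self_ne_zero V h' hfw
  obtain ⟨x', y', h'', he', hx'⟩ := exists_double V h4
  have hxx : x' = x := mul_right_cancel₀ hfw (hx'.trans hq.symm)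
  rcases (Point.X_eq_iff (h₁ := h'') (h₂ := h)).mp hxx with e' | e'
  · exfalso
    rw [e', ← he] at he'
    have h3 : (3 : ℤ) • Point.some x y h = 0 := by
      have hh := sub_eq_zero.mpr he'
      rw [← hh]; abel
    obtain ⟨x1, y1, h1, e1, e3⟩ := psi3_of_torsion V (Point.some_ne_zero h) h3
    rw [Point.some.injEq] at e1
    exact hnc (e1.1 ▸ e3)
  · rw [e', ← he] at he'
    rw [← eq_neg_iff_add_eq_zero.mp he']
    abel

/-- A set of points with the given `x`-coordinates has at most twice as many elements. -/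
lemma card_le_of_roots (p : F[X]) (hp : p ≠ 0) (s : Finset V.Point)
    (hs : ∀ P ∈ s, P ≠ 0 → ∃ x y h, P = Point.some x y h ∧ p.eval x = 0) :
    s.card ≤ 2 * (p.natDegree + 1) := by
  classical
  set t : Finset (Fin 2 → F) := insert ![1, 0] (p.roots.toFinset.image fun x => ![x, 1])
  have hsub : ∀ P ∈ s, P.xRep ∈ t := by
    intro P hPs
    by_cases hP : P = 0
    · simp [hP, t]
    · obtain ⟨x, y, h, rfl, hx⟩ := hs P hPs hP
      simp only [t, Point.xRep_some, Finset.mem_insert, Finset.mem_image, Multiset.mem_toFinset]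
      exact Or.inr ⟨x, (mem_roots hp).mpr hx, rfl⟩
  have ht : t.card ≤ p.natDegree + 1 := by
    refine (Finset.card_insert_le _ _).trans (Nat.add_le_add_right ?_ 1)
    exact (Finset.card_image_le.trans (Multiset.toFinset_card_le _)).trans (card_roots' p)
  calc s.card ≤ 2 * t.card := by
        refine Finset.card_le_mul_card_image_of_maps_to hsub 2 fun b _ => ?_
        rcases Finset.eq_empty_or_nonempty {a ∈ s | a.xRep = b} with e | ⟨Q, hQ⟩
        · simp [e]
        refine (Finset.card_le_card (t := {Q, -Q}) ?_).trans Finset.card_le_two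
        intro R hR
        simp only [Finset.mem_filter] at hR hQ
        rcases Point.eq_or_eq_neg_of_xRep_eq_xRep (hR.2.trans hQ.2.symm) with e | e <;> simp [e]
    _ ≤ 2 * (p.natDegree + 1) := by omega

end Fermat.Agent.ThreeFive
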