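import Fermat.Agent.ThreeFive.Descent

/-!
# Curves with rational isogenies of degrees 3 and 5

Elimination: a curve with a rational 3-isogeny and a rational 5-isogeny is a rational point of
`Z² = t⁴ + 14t² + 625`; consequently its `j`-invariant is one of four values.
-/

set_option autoImplicit false

namespace Fermat.Agent.ThreeFive

/-- The four exceptional `j`-invariants, as a predicate on `(c₄, Δ)`. -/
def IsSpecialPair (c4 Δ : ℚ) : Prop :=
  ∃ num den : ℤ, (5 : ℤ) ∣ num ∧ ¬ (125 : ℤ) ∣ num ∧ ¬ (5 : ℤ) ∣ den ∧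
    c4 ^ 3 * den = num * Δ

/-- The rational values of the parameter of the fibre product. -/
lemma n_values {X n : ℚ} (hn : 2 * n ≠ 11)
    (h : 3 * X ^ 4 + 4 * (n ^ 2 + 1) * X ^ 3 + (12 * n - 6) * (n ^ 2 + 1) * X ^ 2
      + 12 * (n ^ 2 + 1) ^ 2 * X + (4 * n + 3) * (n ^ 2 + 1) ^ 2 = 0) :
    n = 63 / 16 ∨ n = -3 / 4 ∨ n = -29 / 2 ∨ n = 1 / 2 := by
  have hK : n ^ 2 + 1 ≠ 0 := by positivity
  by_cases hX : X = 0
  · subst hX
    right; left
    have h' : (4 * n + 3) * (n ^ 2 + 1) ^ 2 = 0 := by linear_combination h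
    have := (mul_eq_zero.mp h').resolve_right (pow_ne_zero 2 hK)
    linarith
  obtain ⟨r, hr⟩ : ∃ r : ℚ, (12 * X + 4 * n + 3) * (n ^ 2 + 1) = X ^ 2 * (3 - 2 * r) :=
    ⟨(3 - (12 * X + 4 * n + 3) * (n ^ 2 + 1) / X ^ 2) / 2, by field_simp; ring⟩
  have hX4 : X ^ 4 ≠ 0 := pow_ne_zero 4 hX
  have hlin : r ^ 2 + 12 * X + 12 * n - 2 * X * r - 6 * n * r = 0 := by
    apply mul_left_cancel₀ (mul_ne_zero hX4 (show (4 : ℚ) ≠ 0 by norm_num))
    linear_combination (12 * X + 4 * n + 3) * h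
      - ((12 * X + 4 * n + 3) * (n ^ 2 + 1) + X ^ 2 * (3 - 2 * r)
          + (4 * X + 12 * n - 6) * X ^ 2) * hr
  have hK2 : (n ^ 2 + 1) * (2 * r + 3 - 4 * X - 12 * n) = 3 * X ^ 2 := by
    by_cases hr' : 3 - 2 * r = 0
    · apply mul_left_cancel₀ (pow_ne_zero 2 hX)
      have hA : 12 * X + 4 * n + 3 = 0 :=
        (mul_eq_zero.mp (hr.trans (by rw [hr', mul_zero]))).resolve_right hK
      linear_combination -h + (n ^ 2 + 1) ^ 2 * hA - (n ^ 2 + 1) * X ^ 2 * hr'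
    · apply mul_left_cancel₀ (mul_ne_zero hr' (pow_ne_zero 2 hX))
      linear_combination 3 * X ^ 2 * hr - (n ^ 2 + 1) * X ^ 2 * (4 * hlin)
  by_cases hs : r = 6
  · exfalso
    subst hs
    have hn' : n = 3 / 2 := by linarith
    subst hn'
    have hsq : IsSquare ((52 : ℤ) : ℚ) := ⟨6 * X + 13, by push_cast; linear_combination 12 * hK2⟩
    obtain ⟨d, hd⟩ := Rat.isSquare_intCast_iff.mp hsq
    have h1 : d ≤ 7 := by nlinarith
    have h2 : -7 ≤ d := by nlinarith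
    interval_cases d <;> norm_num at hd
  have hs' : (6 - r) ≠ 0 := sub_ne_zero.mpr (Ne.symm hs)
  have hXs : 2 * (6 - r) * X = 6 * n * r - 12 * n - r ^ 2 := by linear_combination hlin
  have hp : 64 * n ^ 2 + 4 * ((4 * n - r) - 6) * ((4 * n - r) ^ 2 + 8) * n
      + 12 * ((4 * n - r) + 6) * (2 - (4 * n - r)) - (4 * n - r) ^ 4 = 0 := by
    have hsub : 3 * (2 * (6 - r) * X) ^ 2
        = (n ^ 2 + 1) * (4 * (6 - r) ^ 2 * (2 * r + 3 - 12 * n)
            - 8 * (6 - r) * (2 * (6 - r) * X)) := by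
      linear_combination -4 * (6 - r) ^ 2 * hK2
    rw [hXs] at hsub
    linear_combination (-1 / 3 : ℚ) * hsub
  set p : ℚ := 4 * n - r with hpdef
  have hp0 : p ≠ 0 := by
    intro h0
    rw [h0] at hp
    have : (8 * n - 12) ^ 2 = 0 := by linear_combination hp
    have h32 : 8 * n - 12 = 0 := by simpa using this
    apply hs
    linarith
  have hZ : ((128 * n + 4 * (p - 6) * (p ^ 2 + 8)) / (4 * p)) ^ 2
      = (p - 3) ^ 4 + 14 * (p - 3) ^ 2 + 625 := by
    field_simp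
    linear_combination 256 * hp
  rcases quartic_points hZ with ht | ht | ht
  · have hp3 : p = 3 := by linarith
    rw [hp3] at hp
    have : (16 * n - 63) * (4 * n + 3) = 0 := by linear_combination hp
    rcases mul_eq_zero.mp this with e | e
    · left; linarith
    · right; left; linarith
  · have hp8 : p = 8 := by linarith
    rw [hp8] at hp
    have : (2 * n - 11) * (2 * n + 29) = 0 := by linear_combination (1 / 16 : ℚ) * hp
    rcases mul_eq_zero.mp this with e | e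
    · exact absurd (by linarith) hn
    · right; right; left; linarith
  · have hp2 : p = -2 := by linarith
    rw [hp2] at hp
    have : (2 * n - 11) * (2 * n - 1) = 0 := by linear_combination (1 / 16 : ℚ) * hp
    rcases mul_eq_zero.mp this with e | e
    · exact absurd (by linarith) hn
    · right; right; right; linarith

/-- The discriminant as a function of the `b`-invariants. -/
def discB {R : Type*} [CommRing R] (b2 b4 b6 b8 : R) : R :=
  -b2 ^ 2 * b8 - 8 * b4 ^ 3 - 27 * b6 ^ 2 + 9 * b2 * b4 * b6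

/-- A rational root of `ψ₃` in the normal form of a rational `5`-isogeny gives a special pair
`(c₄, Δ)`. -/
lemma special_of_frame {B2 B4 D x : ℚ} (hD : D ≠ 0)
    (hrel : (B4 + 2 * D) ^ 2 + 16 * D ^ 2 = D * B2 ^ 2)
    (h3 : 3 * x ^ 4 + B2 * x ^ 3 + 3 * B4 * x ^ 2 + 3 * (B2 * D) * x
      + (5 * D ^ 2 + B4 * D) = 0)
    (hΔ : discB B2 B4 (B2 * D) (5 * D ^ 2 + B4 * D) ≠ 0) :
    IsSpecialPair (B2 ^ 2 - 24 * B4) (discB B2 B4 (B2 * D) (5 * D ^ 2 + B4 * D)) := by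
  have hB2 : B2 ≠ 0 := by
    rintro rfl
    nlinarith [mul_self_pos.mpr hD, sq_nonneg (B4 + 2 * D)]
  obtain ⟨n, hn⟩ : ∃ n, B4 + 2 * D = 4 * D * n := ⟨(B4 + 2 * D) / (4 * D), by field_simp⟩
  have hB : B2 ^ 2 = 16 * D * (n ^ 2 + 1) := by
    apply mul_left_cancel₀ hD
    linear_combination -hrel + (B4 + 2 * D + 4 * D * n) * hn
  have hK : n ^ 2 + 1 ≠ 0 := by positivity
  obtain ⟨l, rfl⟩ : ∃ l, B2 = 4 * (n ^ 2 + 1) * l :=
    ⟨B2 / (4 * (n ^ 2 + 1)), by field_simp⟩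
  have hl : l ≠ 0 := right_ne_zero_of_mul hB2
  obtain rfl : D = (n ^ 2 + 1) * l ^ 2 := by
    apply mul_left_cancel₀ (mul_ne_zero (show (16 : ℚ) ≠ 0 by norm_num) hK)
    linear_combination -hB
  obtain rfl : B4 = (4 * n - 2) * ((n ^ 2 + 1) * l ^ 2) := by linear_combination hn
  obtain ⟨X, rfl⟩ : ∃ X, x = l * X := ⟨x / l, by field_simp⟩
  have hΔeq : discB (4 * (n ^ 2 + 1) * l) ((4 * n - 2) * ((n ^ 2 + 1) * l ^ 2))
      (4 * (n ^ 2 + 1) * l * ((n ^ 2 + 1) * l ^ 2))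
      (5 * ((n ^ 2 + 1) * l ^ 2) ^ 2 + (4 * n - 2) * ((n ^ 2 + 1) * l ^ 2) * ((n ^ 2 + 1) * l ^ 2))
      = 64 * l ^ 6 * (n ^ 2 + 1) ^ 3 * (2 * n - 11) := by
    unfold discB; ring
  have hn11 : 2 * n ≠ 11 := fun e => hΔ (by rw [hΔeq, e]; ring)
  have hX : 3 * X ^ 4 + 4 * (n ^ 2 + 1) * X ^ 3 + (12 * n - 6) * (n ^ 2 + 1) * X ^ 2
      + 12 * (n ^ 2 + 1) ^ 2 * X + (4 * n + 3) * (n ^ 2 + 1) ^ 2 = 0 := by
    apply mul_left_cancel₀ (pow_ne_zero 4 hl)
    linear_combination h3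
  rw [hΔeq]
  rcases n_values hn11 hX with rfl | rfl | rfl | rfl
  · exact ⟨5 * 9393931, 32768, by norm_num, by norm_num, by norm_num, by push_cast; ring⟩
  · exact ⟨-(5 * 24389), 32, by norm_num, by norm_num, by norm_num, by push_cast; ring⟩
  · exact ⟨-(25 * 13997521), 8, by norm_num, by norm_num, by norm_num, by push_cast; ring⟩
  · exact ⟨-25, 2, by norm_num, by norm_num, by norm_num, by push_cast; ring⟩

end Fermat.Agent.ThreeFive
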