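import Fermat.Prelude.Def_FLTPrelim_ModularRep
import Fermat.Agent.ThreeFive.Dup
import Fermat.Agent.ThreeFive.Param
import Mathlib.FieldTheory.Galois.Infinite
import Mathlib.FieldTheory.AbsoluteGaloisGroup

/-!
# Irreducibility modulo 3 or modulo 5

A semistable Weierstrass curve over `ℤ` cannot have Galois-stable lines both in its 3-torsion and
in its 5-torsion.
-/

set_option autoImplicit false

open Polynomial
open WeierstrassCurve WeierstrassCurve.Affine WeierstrassCurve.Affine.Point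

namespace Fermat.Agent.ThreeFive

/-- The algebraic closure of `ℚ`. -/
local notation "Qbar" => AlgebraicClosure ℚ

lemma natCard_aux {p : ℕ} [Fact p.Prime] {M : Type*} [AddCommGroup M] [Module (ZMod p) M]
    (N : Submodule (ZMod p) M) (hN : N ≠ ⊤) {P R : M} (hP : P ∈ N) (hP0 : P ≠ 0) (hR : R ∈ N)
    (hbound : ∀ s : Finset M, s.card < p ^ 3) :
    ∃ a : ZMod p, R = a • P := by
  classical
  obtain ⟨Q, -, hQ⟩ := SetLike.exists_of_lt (lt_top_iff_ne_top.mpr hN)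
  by_contra hcon
  push Not at hcon
  let f : ZMod p × ZMod p × ZMod p → M := fun v => v.1 • P + v.2.1 • R + v.2.2 • Q
  have hinj : Function.Injective f := by
    intro v v' hv
    have h0 : (v.1 - v'.1) • P + (v.2.1 - v'.2.1) • R + (v.2.2 - v'.2.2) • Q = 0 := by
      simp only [sub_smul, f] at hv ⊢
      rw [← sub_eq_zero.mpr hv]
      abel
    have hc : v.2.2 - v'.2.2 = 0 := by
      by_contra hc
      apply hQ
      have hmem : (v.2.2 - v'.2.2) • Q ∈ N := by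
        have e := eq_neg_of_add_eq_zero_right h0
        rw [e]
        exact N.neg_mem (N.add_mem (N.smul_mem _ hP) (N.smul_mem _ hR))
      exact (N.smul_mem_iff hc).mp hmem
    rw [hc, zero_smul, add_zero] at h0
    have hb : v.2.1 - v'.2.1 = 0 := by
      by_contra hb
      apply hcon ((v.2.1 - v'.2.1)⁻¹ * -(v.1 - v'.1))
      rw [mul_smul, neg_smul, ← eq_neg_of_add_eq_zero_right h0, smul_smul, inv_mul_cancel₀ hb,
        one_smul]
    rw [hb, zero_smul, add_zero] at h0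
    have ha : v.1 - v'.1 = 0 := (smul_eq_zero.mp h0).resolve_right hP0
    exact Prod.ext (sub_eq_zero.mp ha) (Prod.ext (sub_eq_zero.mp hb) (sub_eq_zero.mp hc))
  have := hbound (Finset.univ.image f)
  rw [Finset.card_image_of_injective _ hinj] at this
  simp only [Finset.card_univ, Fintype.card_prod, ZMod.card] at this
  exact absurd this (by rw [not_lt]; exact le_of_eq (by ring))

variable (V : WeierstrassCurve ℚ)

/-- The `b`-invariants over `Qbar`. -/
lemma b_map (V : WeierstrassCurve ℚ) :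
    (V⁄Qbar).b₂ = algebraMap ℚ Qbar V.b₂ ∧ (V⁄Qbar).b₄ = algebraMap ℚ Qbar V.b₄ ∧
    (V⁄Qbar).b₆ = algebraMap ℚ Qbar V.b₆ ∧ (V⁄Qbar).b₈ = algebraMap ℚ Qbar V.b₈ :=
  ⟨V.map_b₂ _, V.map_b₄ _, V.map_b₆ _, V.map_b₈ _⟩

lemma delta_baseChange_ne (hΔ : V.Δ ≠ 0) : (V⁄Qbar).Δ ≠ 0 := by
  rw [show (V⁄Qbar).Δ = algebraMap ℚ Qbar V.Δ from V.map_Δ _]
  simpa using hΔ

/-- `Qbar` is Galois over `ℚ`. -/
lemma isGalois_Qbar : IsGalois ℚ Qbar := by
  have halg : Algebra.IsAlgebraic ℚ Qbar := by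
    convert AlgebraicClosure.isAlgebraic ℚ
    · rfl
    · exact Subsingleton.elim _ _
  have : IsAlgClosure ℚ Qbar := ⟨inferInstance, halg⟩
  exact IsAlgClosure.isGalois ℚ Qbar

lemma rational_of_fixed {x : Qbar} (h : ∀ σ : Qbar ≃ₐ[ℚ] Qbar, σ x = x) :
    ∃ q : ℚ, algebraMap ℚ Qbar q = x :=
  haveI := isGalois_Qbar
  (InfiniteGalois.mem_range_algebraMap_iff_fixed x).mpr h

/-- A Galois-stable proper nonzero subgroup of `E[p]` is generated by any of its nonzero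
elements, which are therefore moved to their own multiples by Galois. -/
lemma stable_line {p : ℕ} [Fact p.Prime]
    (hex : ∃ P : (V⁄Qbar).Point, P ≠ 0 ∧ (p : ℤ) • P = 0)
    (hirr : ¬ GaloisRepIsIrreducible (K := Qbar) ℚ V p)
    (hbound : ∀ s : Finset (V⁄Qbar).Point, (∀ P ∈ s, (p : ℤ) • P = 0) → s.card < p ^ 3) :
    ∃ (x y : Qbar) (h : (V⁄Qbar).Nonsingular x y), (p : ℤ) • Point.some x y h = 0 ∧
      ∀ σ : Qbar ≃ₐ[ℚ] Qbar, ∃ k : ℕ, 0 < k ∧ k < p ∧
        σ • Point.some x y h = k • Point.some x y h := by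
  classical
  obtain ⟨P₀, hP₀, hP₀p⟩ := hex
  have hnt : Nontrivial (Submodule.torsionBy ℤ (V⁄Qbar).Point p) :=
    ⟨⟨⟨P₀, (Submodule.mem_torsionBy_iff _ _).mpr hP₀p⟩, 0,
      fun e => hP₀ (congrArg Subtype.val e)⟩⟩
  rw [GaloisRepIsIrreducible, not_and] at hirr
  obtain ⟨N, hNs, hN⟩ : ∃ N : Submodule (ZMod p) (Submodule.torsionBy ℤ (V⁄Qbar).Point p),
      IsGaloisStable ℚ N ∧ ¬ (N = ⊥ ∨ N = ⊤) := by
    simpa using hirr hnt
  rw [not_or] at hN
  obtain ⟨P, hPN, hP0⟩ := (Submodule.ne_bot_iff N).mp hN.1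
  have hPp : (p : ℤ) • (P : (V⁄Qbar).Point) = 0 := (Submodule.mem_torsionBy_iff _ _).mp P.2
  rcases hPeq : (P : (V⁄Qbar).Point) with _ | ⟨x, y, h⟩
  · exact absurd (Subtype.ext hPeq) hP0
  refine ⟨x, y, h, hPeq ▸ hPp, fun σ => ?_⟩
  obtain ⟨a, ha⟩ := natCard_aux N hN.2 hPN hP0 (hNs σ P hPN) (fun s => by
    have := hbound (s.map (Function.Embedding.subtype _)) (fun Q hQ => by
      obtain ⟨R, -, rfl⟩ := Finset.mem_map.mp hQ
      exact (Submodule.mem_torsionBy_iff _ _).mp R.2)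
    rwa [Finset.card_map] at this)
  have ha' : σ • P = a.val • P := by
    rw [← Nat.cast_smul_eq_nsmul (ZMod p), ZMod.natCast_zmod_val]
    exact ha
  have hval := congrArg Subtype.val ha'
  refine ⟨a.val, Nat.pos_of_ne_zero fun e => hP0 ?_, a.val_lt, ?_⟩
  · rw [e, zero_smul] at ha'
    exact (smul_eq_zero_iff_eq σ).mp ha'
  · rw [← hPeq]
    exact hval.trans (Submodule.coe_smul_of_tower _ _)

/-- A reducible `3`-torsion gives a rational root of `ψ₃`. -/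
lemma psi3_root (hΔ : V.Δ ≠ 0) (hirr : ¬ GaloisRepIsIrreducible (K := Qbar) ℚ V 3) :
    ∃ q : ℚ, psi3B V.b₂ V.b₄ V.b₆ V.b₈ q = 0 := by
  have : Fact (Nat.Prime 3) := ⟨Nat.prime_three⟩
  have hΔ' := delta_baseChange_ne V hΔ
  obtain ⟨x, y, h, h3, hσ⟩ := stable_line V (p := 3) (by exact_mod_cast exists_three_torsion _ hΔ')
    hirr (fun s hs => by
      refine lt_of_le_of_lt (card_le_of_roots _ (V⁄Qbar).Ψ₃
        ((V⁄Qbar).Ψ₃_ne_zero three_ne_zero) s fun P hP hP0 => ?_) ?_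
      · obtain ⟨x, y, h, e, hx⟩ := psi3_of_torsion _ hP0 (by exact_mod_cast hs P hP)
        exact ⟨x, y, h, e, by rw [eval_Ψ₃, hx]⟩
      · rw [(V⁄Qbar).natDegree_Ψ₃ three_ne_zero]; norm_num)
  obtain ⟨q, hq⟩ := rational_of_fixed (x := x) fun σ => by
    obtain ⟨k, hk0, hk3, hk⟩ := hσ σ
    rw [algEquiv_smul_def, Point.map_some] at hk
    interval_cases k
    · rw [one_smul, Point.some.injEq] at hk
      exact hk.1
    · have h2 : (2 : ℕ) • Point.some x y h = -Point.some x y h := by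
        rw [eq_neg_iff_add_eq_zero, ← h3]; abel
      rw [h2, Point.neg_some, Point.some.injEq] at hk
      exact hk.1
  obtain ⟨x1, y1, h1, e, hx⟩ := psi3_of_torsion _ (Point.some_ne_zero h) (by exact_mod_cast h3)
  rw [Point.some.injEq] at e
  refine ⟨q, (algebraMap ℚ Qbar).injective ?_⟩
  obtain ⟨b2, b4, b6, b8⟩ := b_map V
  rw [← e.1, ← hq, b2, b4, b6, b8] at hx
  simp only [psi3B] at hx ⊢
  simpa only [map_add, map_mul, map_pow, _root_.map_zero, map_ofNat] using hx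

/-- A reducible `5`-torsion gives the normal form of a curve with a rational `5`-isogeny. -/
lemma five_frame (hΔ : V.Δ ≠ 0) (hirr : ¬ GaloisRepIsIrreducible (K := Qbar) ℚ V 5) :
    ∃ r D : ℚ, D ≠ 0 ∧
      V.b₆ + 2 * r * V.b₄ + r ^ 2 * V.b₂ + 4 * r ^ 3 = (V.b₂ + 12 * r) * D ∧
      5 * D ^ 2 + (V.b₄ + r * V.b₂ + 6 * r ^ 2) * D
        = V.b₈ + 3 * r * V.b₆ + 3 * r ^ 2 * V.b₄ + r ^ 3 * V.b₂ + 3 * r ^ 4 := by
  have : Fact (Nat.Prime 5) := ⟨by norm_num⟩
  have hΔ' := delta_baseChange_ne V hΔ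
  have h50 : ((5 : ℕ) : Qbar) ≠ 0 := Nat.cast_ne_zero.mpr (by norm_num)
  obtain ⟨x, y, h, h5, hσ⟩ := stable_line V (p := 5) (by exact_mod_cast exists_five_torsion _ hΔ')
    hirr (fun s hs => by
      refine lt_of_le_of_lt (card_le_of_roots _ ((V⁄Qbar).Ψ₃ * (V⁄Qbar).preΨ' 5)
        (mul_ne_zero ((V⁄Qbar).Ψ₃_ne_zero three_ne_zero) ((V⁄Qbar).preΨ'_ne_zero h50)) s
        fun P hP hP0 => ?_) ?_
      · obtain ⟨x, y, h, e, hx⟩ := psi35_of_torsion _ hP0 (by exact_mod_cast hs P hP)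
        exact ⟨x, y, h, e, by rw [eval_mul, eval_Ψ₃, eval_preΨ'_five, hx]⟩
      · rw [natDegree_mul ((V⁄Qbar).Ψ₃_ne_zero three_ne_zero) ((V⁄Qbar).preΨ'_ne_zero h50),
          (V⁄Qbar).natDegree_Ψ₃ three_ne_zero, (V⁄Qbar).natDegree_preΨ' h50]
        norm_num [show ¬ Even 5 by decide])
  obtain ⟨x₁, y₁, h₁, x', y', h', e, he2, -, hd1, hd2, hne⟩ :=
    double_of_five_torsion _ (Point.some_ne_zero h) (by exact_mod_cast h5)
  rw [Point.some.injEq] at e
  rw [← e.1] at hd1 hd2 hne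
  have hperm : ∀ σ : Qbar ≃ₐ[ℚ] Qbar, (σ x = x ∧ σ x' = x') ∨ (σ x = x' ∧ σ x' = x) := by
    intro σ
    obtain ⟨k, hk0, hk5, hk⟩ := hσ σ
    have hk2 : σ • (Point.some x y h + Point.some x y h)
        = k • (Point.some x y h + Point.some x y h) := by
      rw [algEquiv_smul_def] at hk ⊢
      rw [map_add, hk, nsmul_add]
    rw [he2] at hk2
    rw [algEquiv_smul_def, Point.map_some] at hk hk2
    have hk2' : k • Point.some x' y' h' = (k + k) • Point.some x y h := by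
      rw [← he2, nsmul_add, add_nsmul]
    rw [hk2'] at hk2
    have hmul : ∀ j : ℕ, (j + 5) • Point.some x y h = j • Point.some x y h := by
      intro j
      rw [add_smul, ← natCast_zsmul _ 5, h5, add_zero]
    have two : (2 : ℕ) • Point.some x y h = Point.some x' y' h' := by rw [two_smul, he2]
    have three : (3 : ℕ) • Point.some x y h = -Point.some x' y' h' := by
      rw [eq_neg_iff_add_eq_zero, ← he2, ← h5]; abel
    have four : (4 : ℕ) • Point.some x y h = -Point.some x y h := by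
      rw [eq_neg_iff_add_eq_zero, ← h5]; abel
    interval_cases k
    · rw [one_smul, Point.some.injEq] at hk
      rw [show (1 + 1 : ℕ) = 2 from rfl, two, Point.some.injEq] at hk2
      exact Or.inl ⟨hk.1, hk2.1⟩
    · rw [two, Point.some.injEq] at hk
      rw [show (2 + 2 : ℕ) = 4 from rfl, four, Point.neg_some, Point.some.injEq] at hk2
      exact Or.inr ⟨hk.1, hk2.1⟩
    · rw [three, Point.neg_some, Point.some.injEq] at hk
      rw [show (3 + 3 : ℕ) = 1 + 5 from rfl, hmul, one_smul, Point.some.injEq] at hk2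
      exact Or.inr ⟨hk.1, hk2.1⟩
    · rw [four, Point.neg_some, Point.some.injEq] at hk
      rw [show (4 + 4 : ℕ) = 3 + 5 from rfl, hmul, three, Point.neg_some, Point.some.injEq] at hk2
      exact Or.inl ⟨hk.1, hk2.1⟩
  obtain ⟨s, hs⟩ := rational_of_fixed (x := x + x') fun σ => by
    rcases hperm σ with ⟨e1, e2⟩ | ⟨e1, e2⟩ <;> rw [map_add, e1, e2]
    exact add_comm _ _
  obtain ⟨π, hπ⟩ := rational_of_fixed (x := x * x') fun σ => by
    rcases hperm σ with ⟨e1, e2⟩ | ⟨e1, e2⟩ <;> rw [map_mul, e1, e2]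
    exact mul_comm _ _
  obtain ⟨b2, b4, b6, b8⟩ := b_map V
  simp only [fV, phiV, fB, phiB, b2, b4, b6, b8] at hd1 hd2
  obtain ⟨ι, hι⟩ : ∃ ι, ι = algebraMap ℚ Qbar := ⟨_, rfl⟩
  rw [← hι] at hd1 hd2 hs hπ
  obtain ⟨u, rfl⟩ : ∃ u, x = u + ι (s / 2) := ⟨x - ι (s / 2), by ring⟩
  have h2 : (2 : Qbar) * ι (s / 2) = ι s := by
    rw [← map_ofNat ι 2, ← map_mul]; congr 1; ring
  obtain rfl : x' = -u + ι (s / 2) := by linear_combination -hs - h2
  have hu : u ≠ 0 := by rintro rfl; exact hne (by ring)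
  have hD : ι ((s / 2) ^ 2 - π) = u ^ 2 := by
    rw [map_sub, map_pow, hπ]; ring
  refine ⟨s / 2, (s / 2) ^ 2 - π, fun e => hu ?_, ι.injective ?_, ι.injective ?_⟩
  · rw [e, _root_.map_zero] at hD
    simpa using hD.symm
  · simp only [map_add, map_sub, map_mul, map_pow, map_ofNat] at hd1 hd2 ⊢
    rw [hπ]
    apply mul_left_cancel₀ (mul_ne_zero (two_ne_zero (α := Qbar)) hu)
    linear_combination hd1 - hd2
  · simp only [map_add, map_sub, map_mul, map_pow, map_ofNat] at hd1 hd2 ⊢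
    rw [hπ]
    apply mul_left_cancel₀ (two_ne_zero (α := Qbar))
    linear_combination -hd1 - hd2

/-- Reducibility at both three and five leaves only the special values of `(c₄, Δ)`. -/
lemma specialPair_of_reducible (hΔ : V.Δ ≠ 0)
    (h3 : ¬ GaloisRepIsIrreducible (K := Qbar) ℚ V 3)
    (h5 : ¬ GaloisRepIsIrreducible (K := Qbar) ℚ V 5) :
    IsSpecialPair V.c₄ V.Δ := by
  obtain ⟨q, hq⟩ := psi3_root V hΔ h3
  obtain ⟨r, D, hD, e6, e8⟩ := five_frame V hΔ h5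
  have hb8 : V.b₈ = (V.b₂ * V.b₆ - V.b₄ ^ 2) / 4 := by linear_combination (1 / 4 : ℚ) * V.b_relation
  have hΔeq : discB (V.b₂ + 12 * r) (V.b₄ + r * V.b₂ + 6 * r ^ 2) ((V.b₂ + 12 * r) * D)
      (5 * D ^ 2 + (V.b₄ + r * V.b₂ + 6 * r ^ 2) * D) = V.Δ := by
    rw [e8, ← e6, hb8, discB, WeierstrassCurve.Δ, hb8]
    ring
  have hc4 : (V.b₂ + 12 * r) ^ 2 - 24 * (V.b₄ + r * V.b₂ + 6 * r ^ 2) = V.c₄ := by
    rw [WeierstrassCurve.c₄]; ring
  rw [← hΔeq, ← hc4]
  refine special_of_frame (x := q - r) hD ?_ ?_ (hΔeq ▸ hΔ)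
  · linear_combination 4 * e8 + 4 * hb8 + (V.b₂ + 12 * r) * e6
  · rw [e8, ← e6]
    simp only [psi3B] at hq
    linear_combination hq

/-- A semistable curve is irreducible modulo `3` or modulo `5`. -/
lemma three_or_five_irreducible (W : WeierstrassCurve ℤ) (hΔ : W.Δ ≠ 0)
    (hW : W.IsSemistableModel) : W.ModRepIsIrreducible 3 ∨ W.ModRepIsIrreducible 5 := by
  by_contra hcon
  rw [not_or] at hcon
  have hΔQ : (W.map (Int.castRingHom ℚ)).Δ ≠ 0 := by
    rw [map_Δ]; simpa using hΔ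
  obtain ⟨num, den, h1, h2, h3, heq⟩ := specialPair_of_reducible _ hΔQ hcon.1 hcon.2
  rw [map_Δ, map_c₄] at heq
  have heqZ : W.c₄ ^ 3 * den = num * W.Δ := by
    have : (((W.c₄ ^ 3 * den : ℤ)) : ℚ) = ((num * W.Δ : ℤ) : ℚ) := by
      push_cast; simpa using heq
    exact_mod_cast this
  have h5p : Prime (5 : ℤ) := Nat.prime_iff_prime_int.mp (by norm_num : Nat.Prime 5)
  have h5c : (5 : ℤ) ∣ W.c₄ :=
    h5p.dvd_of_dvd_pow ((h5p.dvd_or_dvd (heqZ ▸ h1.mul_right _)).resolve_right h3)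
  have h5Δ : ¬ (5 : ℤ) ∣ W.Δ := fun hd => hW 5 (by norm_num) hd h5c
  have hco : IsCoprime ((5 : ℤ) ^ 3) W.Δ := (h5p.coprime_iff_not_dvd.mpr h5Δ).pow_left
  exact h2 ((show (5 : ℤ) ^ 3 = 125 by norm_num) ▸
    hco.dvd_of_dvd_mul_right (heqZ ▸ (pow_dvd_pow_of_dvd h5c 3).mul_right den))

end Fermat.Agent.ThreeFive
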