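import Mathlib.NumberTheory.PythagoreanTriples
import Mathlib.RingTheory.Int.Basic
import Mathlib.Data.ZMod.Basic
import Mathlib.Data.Int.Lemmas
import Mathlib.Data.Rat.Lemmas
import Mathlib.Tactic

/-!
# Infinite descent for the curve 15a

Rank zero of the elliptic curve 15a, by infinite descent on the concordant system
`X² + 9Z² = Y²`, `X² - 16Z² = W²`, and the rational points of `Z² = t⁴ + 14t² + 625`.
-/

set_option autoImplicit false

namespace Fermat.Agent.ThreeFive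

lemma sq_mod_of_odd {x : ℤ} (h : x % 2 = 1) : x ^ 2 % 8 = 1 := by
  have h4 : x % 8 = 1 ∨ x % 8 = 3 ∨ x % 8 = 5 ∨ x % 8 = 7 := by omega
  rw [sq, Int.mul_emod]
  rcases h4 with h | h | h | h <;> rw [h] <;> norm_num

lemma sq_mod_of_even {x : ℤ} (h : x % 2 = 0) : x ^ 2 % 8 = 0 ∨ x ^ 2 % 8 = 4 := by
  have h4 : x % 8 = 0 ∨ x % 8 = 2 ∨ x % 8 = 4 ∨ x % 8 = 6 := by omega
  rw [sq, Int.mul_emod]
  rcases h4 with h | h | h | h <;> rw [h] <;> norm_num

lemma sq_mod_cases (x : ℤ) : x ^ 2 % 8 = 0 ∨ x ^ 2 % 8 = 1 ∨ x ^ 2 % 8 = 4 := by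
  rcases Int.emod_two_eq x with h | h
  · have := sq_mod_of_even h; tauto
  · have := sq_mod_of_odd h; tauto

lemma isCoprime_two_of_odd {x : ℤ} (h : x % 2 = 1) : IsCoprime (2 : ℤ) x :=
  ⟨-(x / 2), 1, by omega⟩

/-- Common refinement of two coprime factorisations. -/
lemma four_numbers {m n r s : ℤ} (hmn : IsCoprime m n) (h : m * n = r * s) (hm : m ≠ 0) :
    ∃ a b c d : ℤ, m = a * b ∧ r = a * c ∧ s = b * d ∧ n = c * d ∧ IsCoprime b c ∧
      IsCoprime a d ∧ IsCoprime b d ∧ IsCoprime a c := by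
  have hg : 0 < Int.gcd m r := Int.gcd_pos_of_ne_zero_left _ hm
  obtain ⟨b, c, hbc, hb, hc⟩ := Int.exists_gcd_one hg
  set g : ℤ := (Int.gcd m r : ℤ)
  have hg0 : g ≠ 0 := by
    simp only [g]
    exact_mod_cast hg.ne'
  have hcop : IsCoprime b c := Int.isCoprime_iff_gcd_eq_one.mpr hbc
  have h2 : b * n = c * s := by
    apply mul_left_cancel₀ hg0
    rw [hb, hc] at h
    linear_combination h
  obtain ⟨d, hd⟩ : b ∣ s := hcop.dvd_of_dvd_mul_left ⟨n, h2.symm⟩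
  have hb0 : b ≠ 0 := by
    rintro rfl
    exact hm (by simpa using hb)
  have hn : n = c * d := mul_left_cancel₀ hb0 (by linear_combination h2 + c * hd)
  have hm' : m = g * b := by linear_combination hb
  rw [hm', hn] at hmn
  exact ⟨g, b, c, d, hm', by linear_combination hc, hd, hn, hcop,
    hmn.of_mul_left_left.of_mul_right_right, hmn.of_mul_left_right.of_mul_right_right,
    hmn.of_mul_left_left.of_mul_right_left⟩

lemma ratio_sq {a d U V : ℤ} (had : IsCoprime a d) (ha : a ≠ 0)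
    (h : a ^ 2 * U = d ^ 2 * V) : ∃ k, U = k * d ^ 2 ∧ V = k * a ^ 2 := by
  have hcop : IsCoprime (a ^ 2) (d ^ 2) := had.pow
  obtain ⟨k, hk⟩ : a ^ 2 ∣ V := hcop.dvd_of_dvd_mul_left ⟨U, h.symm⟩
  refine ⟨k, ?_, by linear_combination hk⟩
  apply mul_left_cancel₀ (pow_ne_zero 2 ha)
  linear_combination h + d ^ 2 * hk

lemma dvd_const {k c b g : ℤ} (hbg : IsCoprime b g) (h1 : k ∣ c * b) (h2 : k ∣ c * g) : k ∣ c := by
  obtain ⟨u, v, huv⟩ := hbg
  have : c = u * (c * b) + v * (c * g) := by linear_combination -(c * huv)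
  rw [this]
  exact dvd_add (h1.mul_left u) (h2.mul_left v)

lemma cast_zmod3_eq_zero {x : ℤ} (h : (x : ZMod 3) = 0) : (3 : ℤ) ∣ x := by
  simpa using (ZMod.intCast_zmod_eq_zero_iff_dvd x 3).mp h

lemma cast_zmod5_eq_zero {x : ℤ} (h : (x : ZMod 5) = 0) : (5 : ℤ) ∣ x := by
  simpa using (ZMod.intCast_zmod_eq_zero_iff_dvd x 5).mp h

lemma not_common_prime {p x y : ℤ} (hp : Prime p) (h : IsCoprime x y) (hx : p ∣ x) : ¬ p ∣ y :=
  fun hy => hp.not_isUnit (h.isUnit_of_dvd' hx hy)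

lemma dvd_25_cases {k : ℤ} (hk : 0 < k) (h : k ∣ 25) : k = 1 ∨ k = 5 ∨ k = 25 := by
  have hle := Int.le_of_dvd (by norm_num) h
  interval_cases k <;> revert h <;> decide

lemma dvd_9_cases {k : ℤ} (h8 : k % 8 = 3) (h : k ∣ 9) : k = 3 := by
  have h1 := Int.le_of_dvd (by norm_num) h
  have h2 := Int.le_of_dvd (by norm_num) (neg_dvd.mpr h)
  have h2' : -9 ≤ k := by linarith
  interval_cases k <;> revert h h8 <;> decide

/-- No smaller solution. -/
def NoSmaller (X : ℤ) : Prop :=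
  ∀ X' Z' Y' W' : ℤ, X' ^ 2 < X ^ 2 → IsCoprime X' Z' → X' ^ 2 + 9 * Z' ^ 2 = Y' ^ 2 →
    X' ^ 2 - 16 * Z' ^ 2 = W' ^ 2 → Z' ≠ 0 → W' ≠ 0 → False

/-- For even `Z` the two Pythagorean triples give `X = m² - n² = r² + 16 t²` with `m n = 3 r t`. -/
lemma exists_parameters {X Z Y W : ℤ} (hX : 0 < X) (hY : 0 < Y) (hcop : IsCoprime X Z)
    (h1 : X ^ 2 + 9 * Z ^ 2 = Y ^ 2) (h2 : X ^ 2 - 16 * Z ^ 2 = W ^ 2) (hZ : Z ≠ 0)
    (hZe : Z % 2 = 0) :
    ∃ m n r t : ℤ, X = m ^ 2 - n ^ 2 ∧ X = r ^ 2 + (4 * t) ^ 2 ∧ IsCoprime m n ∧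
      (n % 2 = 0 ∧ m % 2 = 1) ∧ r % 2 = 1 ∧ m * n = 3 * (r * t) ∧ m ≠ 0 ∧ r ≠ 0 ∧ t ≠ 0 := by
  have hXo : X % 2 = 1 := by
    rcases Int.emod_two_eq X with h | h
    · exact absurd (Int.dvd_of_emod_eq_zero hZe)
        (not_common_prime Int.prime_two hcop (Int.dvd_of_emod_eq_zero h))
    · exact h
  have h3X : ¬ (3 : ℤ) ∣ X := by
    intro h
    have hx : (X : ZMod 3) = 0 := (ZMod.intCast_zmod_eq_zero_iff_dvd X 3).mpr (by simpa using h)
    have he := congrArg (Int.cast : ℤ → ZMod 3) h2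
    push_cast at he
    rw [hx] at he
    have key : ∀ z w : ZMod 3, (0 : ZMod 3) ^ 2 - 16 * z ^ 2 = w ^ 2 → z = 0 := by decide
    exact not_common_prime Int.prime_three hcop h (cast_zmod3_eq_zero (key _ _ he))
  have hc3 : IsCoprime X (3 * Z) :=
    ((Int.prime_three.coprime_iff_not_dvd.mpr h3X).symm).mul_right hcop
  have hpt1 : PythagoreanTriple X (3 * Z) Y := by
    unfold PythagoreanTriple; linear_combination h1
  obtain ⟨m, n, hXmn, hZmn, -, hgmn, hpar, -⟩ :=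
    hpt1.coprime_classification' (Int.isCoprime_iff_gcd_eq_one.mp hc3) hXo hY
  have hWo : W % 2 = 1 := by
    rcases Int.emod_two_eq W with h | h
    · have := sq_mod_of_even h; have := sq_mod_of_odd hXo; have := sq_mod_of_even hZe; omega
    · exact h
  have hcWZ : IsCoprime W Z := by
    have : IsCoprime (W ^ 2) (Z ^ 2) := by
      have h' : IsCoprime (X ^ 2) (Z ^ 2) := hcop.pow
      have := h'.add_mul_right_left (-16)
      rwa [show X ^ 2 + -16 * Z ^ 2 = W ^ 2 by linear_combination h2] at this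
    exact (IsCoprime.pow_iff (by norm_num) (by norm_num)).mp this
  have hcW4 : IsCoprime W (4 * Z) := by
    have h2' : IsCoprime W ((2 : ℤ) ^ 2) := ((isCoprime_two_of_odd hWo).symm).pow_right
    norm_num at h2'
    exact h2'.mul_right hcWZ
  have hpt2 : PythagoreanTriple W (4 * Z) X := by
    unfold PythagoreanTriple; linear_combination -h2
  obtain ⟨r₀, s₀, -, hZrs₀, hXrs₀, hgrs₀, hpar₀, -⟩ :=
    hpt2.coprime_classification' (Int.isCoprime_iff_gcd_eq_one.mp hcW4) hWo hX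
  obtain ⟨r, s, hZrs, hXrs, hgrs, hr, hs⟩ : ∃ r s : ℤ, 4 * Z = 2 * r * s ∧
      X = r ^ 2 + s ^ 2 ∧ IsCoprime r s ∧ r % 2 = 1 ∧ s % 2 = 0 := by
    have hc0 : IsCoprime r₀ s₀ := Int.isCoprime_iff_gcd_eq_one.mpr hgrs₀
    rcases hpar₀ with ⟨ha, hb⟩ | ⟨ha, hb⟩
    · exact ⟨s₀, r₀, by linear_combination hZrs₀, by linear_combination hXrs₀, hc0.symm, hb, ha⟩
    · exact ⟨r₀, s₀, hZrs₀, hXrs₀, hc0, ha, hb⟩
  have hn : n % 2 = 0 ∧ m % 2 = 1 := by
    rcases hpar with ⟨ha, hb⟩ | ⟨ha, hb⟩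
    · exfalso
      have := sq_mod_of_even ha
      have := sq_mod_of_odd hb
      have := sq_mod_of_odd hr
      have := sq_mod_of_even hs
      omega
    · exact ⟨hb, ha⟩
  have hmn : IsCoprime m n := Int.isCoprime_iff_gcd_eq_one.mpr hgmn
  have hmain : 4 * (m * n) = 3 * (r * s) := by
    have : 2 * (4 * (m * n)) = 2 * (3 * (r * s)) := by linear_combination -4 * hZmn + 3 * hZrs
    omega
  have hrs0 : r ≠ 0 ∧ s ≠ 0 := by
    constructor <;>
      (rintro rfl; exact hZ (by simpa using hZrs))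
  have hm0 : m ≠ 0 := by rintro rfl; exact hZ (by simpa using hZmn)
  obtain ⟨t, rfl⟩ : (4 : ℤ) ∣ s := by
    have h2r : IsCoprime ((2 : ℤ) ^ 2) r := (isCoprime_two_of_odd hr).pow_left
    norm_num at h2r
    have h43 : IsCoprime (4 : ℤ) (3 * r) := (show IsCoprime (4 : ℤ) 3 from ⟨1, -1, by norm_num⟩).mul_right h2r
    exact h43.dvd_of_dvd_mul_left ⟨m * n, by linear_combination -hmain⟩
  have ht0 : t ≠ 0 := fun h => hrs0.2 (by rw [h, mul_zero])
  have hmn3 : m * n = 3 * (r * t) := by apply mul_left_cancel₀ (show (4 : ℤ) ≠ 0 by norm_num); linear_combination hmain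
  exact ⟨m, n, r, t, hXmn, hXrs, hmn, hn, hr, hmn3, hm0, hrs0.1, ht0⟩

/-- In these parameters `3` does not divide `m`: the quotient of the two quadratic forms would be
`1`, `5` or `25`, each impossible modulo `3` or `8`. -/
lemma not_three_dvd_left {X m n r t : ℤ} (hXmn : X = m ^ 2 - n ^ 2)
    (hXrs : X = r ^ 2 + (4 * t) ^ 2) (hmn : IsCoprime m n) (hn : n % 2 = 0 ∧ m % 2 = 1)
    (hr : r % 2 = 1) (hmn3 : m * n = 3 * (r * t)) (hm0 : m ≠ 0) (ht0 : t ≠ 0) :
    ¬ (3 : ℤ) ∣ m := by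
  intro h3
  obtain ⟨m₁, rfl⟩ := h3
  have hm1 : m₁ ≠ 0 := fun h => hm0 (by rw [h, mul_zero])
  obtain ⟨α, β, γ, δ, e1, e2, e3, e4, hβγ, hαδ, -, -⟩ :=
    four_numbers hmn.of_mul_left_right
      (show m₁ * n = r * t by linarith) hm1
  subst e1 e2 e3 e4
  have hα : α ≠ 0 := left_ne_zero_of_mul hm1
  obtain ⟨k, hU, hV⟩ := ratio_sq hαδ hα
    (show α ^ 2 * (9 * β ^ 2 - γ ^ 2) = δ ^ 2 * (16 * β ^ 2 + γ ^ 2) by
      linear_combination hXrs - hXmn)
  have hk0 : 0 < k := by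
    by_contra hk
    nlinarith [mul_self_pos.mpr (left_ne_zero_of_mul ht0), sq_nonneg γ, sq_nonneg α]
  have hk25 : k ∣ 25 := dvd_const (IsCoprime.pow (m := 2) (n := 2) hβγ)
    ⟨δ ^ 2 + α ^ 2, by linear_combination hU + hV⟩
    ⟨9 * α ^ 2 - 16 * δ ^ 2, by linear_combination 9 * hV - 16 * hU⟩
  have hγ3 : ¬ (3 : ℤ) ∣ γ := fun h =>
    not_common_prime Int.prime_three hmn (dvd_mul_right 3 _) (h.mul_right δ)
  have hk : k = 1 ∨ k = 5 ∨ k = 25 := dvd_25_cases hk0 hk25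
  have hmod : ∀ j : ℤ, (j : ZMod 3) = 1 → k = j → False := by
    intro j hj hkj
    have he := congrArg (Int.cast : ℤ → ZMod 3) hU
    push_cast at he
    rw [hkj, hj] at he
    have key : ∀ b g d : ZMod 3, 9 * b ^ 2 - g ^ 2 = 1 * d ^ 2 → g = 0 := by decide
    exact hγ3 (cast_zmod3_eq_zero (key _ _ _ he))
  rcases hk with hk | hk | hk
  · exact hmod 1 (by decide) hk
  · -- `k = 5`: impossible modulo 8
    subst hk
    have hαo : α % 2 = 1 ∧ γ % 2 = 1 := by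
      constructor <;>
      · by_contra hc
        have he : (2 : ℤ) ∣ α * γ := by
          first
            | exact (show (2 : ℤ) ∣ α by omega).mul_right γ
            | exact (show (2 : ℤ) ∣ γ by omega).mul_left α
        omega
    have hβo : β % 2 = 1 := by
      by_contra hc
      have he : (2 : ℤ) ∣ 3 * (α * β) := ((show (2 : ℤ) ∣ β by omega).mul_left α).mul_left 3
      omega
    have := sq_mod_of_odd hαo.1
    have := sq_mod_of_odd hαo.2
    omega
  · exact hmod 25 (by decide) hk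

/-- If `3 ∣ n` the parameters give a smaller solution. -/
lemma descent_three_dvd_right {X m n r t : ℤ} (hnext : NoSmaller X) (hX : 0 < X)
    (hXmn : X = m ^ 2 - n ^ 2) (hXrs : X = r ^ 2 + (4 * t) ^ 2) (hmn : IsCoprime m n)
    (hn : n % 2 = 0 ∧ m % 2 = 1) (hr : r % 2 = 1) (hmn3 : m * n = 3 * (r * t)) (hm0 : m ≠ 0)
    (hr0 : r ≠ 0) (ht0 : t ≠ 0) (h3 : (3 : ℤ) ∣ n) : False := by
  obtain ⟨n₁, rfl⟩ := h3
  obtain ⟨α, β, γ, δ, e1, e2, e3, e4, hβγ, hαδ, -, -⟩ :=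
    four_numbers hmn.of_mul_right_right
      (show m * n₁ = r * t by linarith) hm0
  subst e1 e2 e3 e4
  have hα : α ≠ 0 := left_ne_zero_of_mul hm0
  have hβ : β ≠ 0 := left_ne_zero_of_mul ht0
  have hδ : δ ≠ 0 := right_ne_zero_of_mul ht0
  obtain ⟨k, hU, hV⟩ := ratio_sq hαδ hα
    (show α ^ 2 * (β ^ 2 - γ ^ 2) = δ ^ 2 * (16 * β ^ 2 + 9 * γ ^ 2) by
      linear_combination hXrs - hXmn)
  have hk0 : 0 < k := by
    by_contra hk
    nlinarith [mul_self_pos.mpr hβ, sq_nonneg γ, sq_nonneg α]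
  have hk25 : k ∣ 25 := dvd_const (IsCoprime.pow (m := 2) (n := 2) hβγ)
    ⟨9 * δ ^ 2 + α ^ 2, by linear_combination 9 * hU + hV⟩
    ⟨α ^ 2 - 16 * δ ^ 2, by linear_combination hV - 16 * hU⟩
  have hk : k = 1 ∨ k = 5 ∨ k = 25 := dvd_25_cases hk0 hk25
  have hrec : ∀ e : ℤ, e ≠ 0 → k = e ^ 2 → False := by
    intro e he hke
    subst hke
    have hγ : γ ≠ 0 := right_ne_zero_of_mul hr0
    have hγo : γ % 2 = 1 := by
      by_contra hc
      have hh : (2 : ℤ) ∣ α * γ := (show (2 : ℤ) ∣ γ by omega).mul_left α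
      omega
    have h4γ : IsCoprime (4 * β) γ := by
      have h' : IsCoprime ((2 : ℤ) ^ 2) γ := (isCoprime_two_of_odd hγo).pow_left
      norm_num at h'
      exact h'.mul_left hβγ
    refine hnext (4 * β) γ (e * α) (4 * (e * δ)) ?_ h4γ (by linear_combination hV)
      (by linear_combination 16 * hU) hγ
      (mul_ne_zero (by norm_num) (mul_ne_zero he hδ))
    have hb : 1 ≤ δ ^ 2 := Int.add_one_le_iff.mpr (sq_pos_of_ne_zero hδ)
    have hb' : 1 ≤ β ^ 2 := Int.add_one_le_iff.mpr (sq_pos_of_ne_zero hβ)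
    have e16 : X = (α * γ) ^ 2 + 16 * β ^ 2 * δ ^ 2 := by linear_combination hXrs
    have hX16 : 16 * β ^ 2 ≤ X := by
      have h0 := le_mul_of_one_le_right (show (0 : ℤ) ≤ 16 * β ^ 2 by positivity) hb
      have h0' := sq_nonneg (α * γ)
      linarith
    have hXX : 2 * X ≤ X ^ 2 := by
      rw [sq]; exact mul_le_mul_of_nonneg_right (by linarith) hX.le
    have e4 : (4 * β) ^ 2 = 16 * β ^ 2 := by ring
    linarith
  rcases hk with hk | hk | hk
  · exact hrec 1 one_ne_zero (by rw [hk]; norm_num)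
  · -- `k = 5`: impossible modulo 3
    subst hk
    have he := congrArg (Int.cast : ℤ → ZMod 3) hV
    push_cast at he
    have key : ∀ b g a : ZMod 3, 16 * b ^ 2 + 9 * g ^ 2 = 5 * a ^ 2 → b = 0 := by decide
    exact not_common_prime Int.prime_three hmn
      ((cast_zmod3_eq_zero (key _ _ _ he)).mul_left α) (dvd_mul_right 3 _)
  · exact hrec 5 (by norm_num) (by rw [hk]; norm_num)

/-- The descent step for even `Z`. -/
lemma case_even {X Z Y W : ℤ} (hnext : NoSmaller X) (hX : 0 < X)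
    (hY : 0 < Y) (hcop : IsCoprime X Z) (h1 : X ^ 2 + 9 * Z ^ 2 = Y ^ 2)
    (h2 : X ^ 2 - 16 * Z ^ 2 = W ^ 2) (hZ : Z ≠ 0) (_hW : W ≠ 0) (hZe : Z % 2 = 0) : False := by
  obtain ⟨m, n, r, t, hXmn, hXrs, hmn, hn, hr, hmn3, hm0, hr0, ht0⟩ :=
    exists_parameters hX hY hcop h1 h2 hZ hZe
  rcases Int.prime_three.dvd_or_dvd ⟨r * t, hmn3⟩ with h3 | h3
  · exact not_three_dvd_left hXmn hXrs hmn hn hr hmn3 hm0 ht0 h3
  · exact descent_three_dvd_right hnext hX hXmn hXrs hmn hn hr hmn3 hm0 hr0 ht0 h3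

/-- The descent step for odd `Z`. -/
lemma case_odd {X Z Y W : ℤ} (hnext : NoSmaller X) (hX : 0 < X)
    (hY : 0 < Y) (hcop : IsCoprime X Z) (h1 : X ^ 2 + 9 * Z ^ 2 = Y ^ 2)
    (h2 : X ^ 2 - 16 * Z ^ 2 = W ^ 2) (hZ : Z ≠ 0) (hW : W ≠ 0) (hZo : Z % 2 = 1) : False := by
  have hXe : X % 2 = 0 := by
    rcases Int.emod_two_eq X with h | h
    · exact h
    · have := sq_mod_of_odd h; have := sq_mod_of_odd hZo; have := sq_mod_cases Y; omega
  obtain ⟨x, rfl⟩ : (4 : ℤ) ∣ X := by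
    obtain ⟨a, rfl⟩ := Int.dvd_of_emod_eq_zero hXe
    rcases Int.emod_two_eq a with h | h
    · omega
    · exfalso
      have := sq_mod_of_odd h; have := sq_mod_of_odd hZo; have := sq_mod_cases Y
      have e : (2 * a) ^ 2 = 4 * a ^ 2 := by ring
      omega
  obtain ⟨w, rfl⟩ : (4 : ℤ) ∣ W := by
    apply (Int.pow_dvd_pow_iff (n := 2) (by norm_num)).mp
    exact ⟨x ^ 2 - Z ^ 2, by linear_combination -h2⟩
  have hx : 0 < x := by omega
  have hw : w ≠ 0 := fun h => hW (by rw [h, mul_zero])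
  have ex : x ^ 2 = Z ^ 2 + w ^ 2 := by linarith
  have ey : (4 * w) ^ 2 + 25 * Z ^ 2 = Y ^ 2 := by linarith
  have hxZ : IsCoprime x Z := hcop.of_mul_left_right
  have hZw : IsCoprime Z w := by
    have h' : IsCoprime (x ^ 2) (Z ^ 2) := hxZ.pow
    have h'' := h'.add_mul_right_left (-1)
    rw [show x ^ 2 + -1 * Z ^ 2 = w ^ 2 by linear_combination ex] at h''
    exact ((IsCoprime.pow_iff (by norm_num) (by norm_num)).mp h'').symm
  by_cases h5 : (5 : ℤ) ∣ w
  · -- descend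
    obtain ⟨v, rfl⟩ := h5
    obtain ⟨y, rfl⟩ : (5 : ℤ) ∣ Y :=
      Int.Prime.dvd_pow' (p := 5) (by norm_num) (show ((5 : ℕ) : ℤ) ∣ Y ^ 2 from
        ⟨5 * (16 * v ^ 2) + 5 * Z ^ 2, by push_cast; linear_combination -ey⟩)
    have e1 : y ^ 2 = Z ^ 2 + 16 * v ^ 2 := by
      apply mul_left_cancel₀ (show (25 : ℤ) ≠ 0 by norm_num)
      linear_combination -ey
    have hyv : IsCoprime y v := by
      have h' : IsCoprime (Z ^ 2) (v ^ 2) := hZw.of_mul_right_right.pow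
      have h'' := h'.add_mul_right_left 16
      rw [← e1] at h''
      exact (IsCoprime.pow_iff (by norm_num) (by norm_num)).mp h''
    refine hnext y v x Z ?_ hyv (by linear_combination e1 - ex) (by linear_combination e1)
      (fun h => hw (by rw [h, mul_zero])) hZ
    nlinarith
  · -- impossible
    have h5Y : ¬ (5 : ℤ) ∣ Y := by
      rintro ⟨y, rfl⟩
      have : (5 : ℤ) ∣ (4 * w) ^ 2 := ⟨5 * y ^ 2 - 5 * Z ^ 2, by linear_combination ey⟩
      have h5p : Prime (5 : ℤ) := by exact_mod_cast Nat.prime_iff_prime_int.mp (by norm_num : Nat.Prime 5)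
      exact h5 ((h5p.dvd_or_dvd (h5p.dvd_of_dvd_pow this)).resolve_left (by norm_num))
    have h5p : Prime (5 : ℤ) := by exact_mod_cast Nat.prime_iff_prime_int.mp (by norm_num : Nat.Prime 5)
    have hZwo : w % 2 = 0 := by
      rcases Int.emod_two_eq w with h | h
      · exact h
      · have := sq_mod_of_odd h; have := sq_mod_of_odd hZo; have := sq_mod_cases x; omega
    have hcA : IsCoprime (5 * Z) (4 * w) := by
      have a1 : IsCoprime (5 : ℤ) (4 * w) := h5p.coprime_iff_not_dvd.mpr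
        fun h => h5 ((h5p.dvd_or_dvd h).resolve_left (by norm_num))
      have a2 : IsCoprime Z ((2 : ℤ) ^ 2) := ((isCoprime_two_of_odd hZo).symm).pow_right
      norm_num at a2
      exact a1.mul_left (a2.mul_right hZw)
    have hpA : PythagoreanTriple (5 * Z) (4 * w) Y := by
      unfold PythagoreanTriple; linear_combination ey
    have hpB : PythagoreanTriple Z w x := by
      unfold PythagoreanTriple; linear_combination -ex
    obtain ⟨m₀, n₀, hA1, hA2, -, hg1, hp1, -⟩ :=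
      hpA.coprime_classification' (Int.isCoprime_iff_gcd_eq_one.mp hcA) (by omega) hY
    obtain ⟨r₀, s₀, hB1, hB2, -, hg2, hp2, -⟩ :=
      hpB.coprime_classification' (Int.isCoprime_iff_gcd_eq_one.mp hZw) hZo hx
    obtain ⟨m, n, r, s, hZ', hP, hmn, hrs, hm, hn, hr, hs⟩ :
        ∃ m n r s : ℤ, m ^ 2 - n ^ 2 = 5 * (r ^ 2 - s ^ 2) ∧ m * n = 4 * (r * s) ∧
          IsCoprime m n ∧ IsCoprime r s ∧ m % 2 = 1 ∧ n % 2 = 0 ∧ r % 2 = 1 ∧ s % 2 = 0 := by
      have c1 := Int.isCoprime_iff_gcd_eq_one.mpr hg1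
      have c2 := Int.isCoprime_iff_gcd_eq_one.mpr hg2
      have d1 : m₀ ^ 2 - n₀ ^ 2 = 5 * (r₀ ^ 2 - s₀ ^ 2) := by rw [← hA1, hB1]
      have d2 : m₀ * n₀ = 4 * (r₀ * s₀) := by linarith
      rcases hp1 with ⟨a1, a2⟩ | ⟨a1, a2⟩ <;> rcases hp2 with ⟨b1, b2⟩ | ⟨b1, b2⟩
      · exact ⟨n₀, m₀, s₀, r₀, by linarith, by linarith, c1.symm, c2.symm, a2, a1, b2, b1⟩
      · exfalso
        have := sq_mod_of_even a1; have := sq_mod_of_odd a2
        have := sq_mod_of_odd b1; have := sq_mod_of_even b2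
        omega
      · exfalso
        have := sq_mod_of_odd a1; have := sq_mod_of_even a2
        have := sq_mod_of_even b1; have := sq_mod_of_odd b2
        omega
      · exact ⟨m₀, n₀, r₀, s₀, d1, d2, c1, c2, a1, a2, b1, b2⟩
    obtain ⟨t, rfl⟩ : (4 : ℤ) ∣ n := by
      have hm4 : IsCoprime ((2 : ℤ) ^ 2) m := (isCoprime_two_of_odd hm).pow_left
      norm_num at hm4
      exact hm4.dvd_of_dvd_mul_left ⟨r * s, hP⟩
    have hm0 : m ≠ 0 := by omega
    obtain ⟨α, β, γ, δ, e1, e2, e3, e4, -, hαδ, hβδ, -⟩ :=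
      four_numbers hmn.of_mul_right_right (show m * t = r * s by linarith) hm0
    subst e1 e2 e3 e4
    obtain ⟨k, hU, hV⟩ := ratio_sq hαδ (left_ne_zero_of_mul hm0)
      (show α ^ 2 * (β ^ 2 - 5 * γ ^ 2) = δ ^ 2 * (16 * γ ^ 2 - 5 * β ^ 2) by
        linear_combination hZ')
    have hαo : α % 2 = 1 := by
      by_contra hc
      have hh : (2 : ℤ) ∣ α * β := (show (2 : ℤ) ∣ α by omega).mul_right β
      omega
    have hβo : β % 2 = 1 := by
      by_contra hc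
      have hh : (2 : ℤ) ∣ α * β := (show (2 : ℤ) ∣ β by omega).mul_left α
      omega
    have hγo : γ % 2 = 1 := by
      by_contra hc
      have hh : (2 : ℤ) ∣ α * γ := (show (2 : ℤ) ∣ γ by omega).mul_left α
      omega
    have hk9 : k ∣ 9 := by
      have hbg : IsCoprime (β ^ 2) (γ ^ 2) :=
        (IsCoprime.pow (m := 2) (n := 2)
          (hmn.of_mul_left_right.of_mul_right_right.of_mul_right_left))
      exact dvd_const hbg
        ⟨-(16 * δ ^ 2 + 5 * α ^ 2), by linear_combination -16 * hU - 5 * hV⟩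
        ⟨-(5 * δ ^ 2 + α ^ 2), by linear_combination -5 * hU - hV⟩
    have hk8 : k % 8 = 3 := by
      have := sq_mod_of_odd hαo; have := sq_mod_of_odd hβo; have := sq_mod_of_odd hγo
      have hmm := Int.mul_emod k (α ^ 2) 8
      rw [sq_mod_of_odd hαo] at hmm
      omega
    have hk : k = 3 := dvd_9_cases hk8 hk9
    subst hk
    have he := congrArg (Int.cast : ℤ → ZMod 5) hU
    push_cast at he
    have key : ∀ b g d : ZMod 5, b ^ 2 - 5 * g ^ 2 = 3 * d ^ 2 → b = 0 ∧ d = 0 := by decide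
    obtain ⟨kb, kd⟩ := key _ _ _ he
    exact not_common_prime h5p hβδ (cast_zmod5_eq_zero kb) (cast_zmod5_eq_zero kd)

/-- The inductive core of the descent. -/
lemma concordant_core (N : ℕ) : ∀ X Z Y W : ℤ, X.natAbs = N → 0 < X → 0 < Y → IsCoprime X Z →
    X ^ 2 + 9 * Z ^ 2 = Y ^ 2 → X ^ 2 - 16 * Z ^ 2 = W ^ 2 → Z ≠ 0 → W ≠ 0 → False := by
  induction N using Nat.strong_induction_on with
  | _ N ih =>
  intro X Z Y W hN hX hY hcop h1 h2 hZ hW
  have hnext : NoSmaller X := by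
    intro X' Z' Y' W' hlt hcop' e1 e2 hZ' hW'
    have hX' : X' ≠ 0 := by
      rintro rfl
      nlinarith [mul_self_pos.mpr hZ', sq_nonneg W']
    have hY' : Y' ≠ 0 := by
      rintro rfl
      nlinarith [mul_self_pos.mpr hX', sq_nonneg Z']
    refine ih |X'|.natAbs ?_ |X'| Z' |Y'| W' rfl (abs_pos.mpr hX') (abs_pos.mpr hY')
      hcop'.abs_left ?_ ?_ hZ' hW'
    · rw [← hN]
      apply Int.natAbs_lt_iff_sq_lt.mpr
      rwa [sq_abs]
    · rw [sq_abs, sq_abs, e1]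
    · rw [sq_abs, e2]
  rcases Int.emod_two_eq Z with hZe | hZo
  · exact case_even hnext hX hY hcop h1 h2 hZ hW hZe
  · exact case_odd hnext hX hY hcop h1 h2 hZ hW hZo

/-- The only solutions of the concordant system are the trivial ones. -/
lemma concordant {X Z Y W : ℤ} (h1 : X ^ 2 + 9 * Z ^ 2 = Y ^ 2)
    (h2 : X ^ 2 - 16 * Z ^ 2 = W ^ 2) : Z = 0 ∨ W = 0 := by
  by_contra hcon
  rw [not_or] at hcon
  obtain ⟨hZ, hW⟩ := hcon
  have hg : 0 < Int.gcd X Z := Int.gcd_pos_of_ne_zero_right _ hZ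
  obtain ⟨x, z, hxz, hX', hZ'⟩ := Int.exists_gcd_one hg
  set g : ℤ := (Int.gcd X Z : ℤ)
  have hg0 : g ≠ 0 := by
    simp only [g]
    exact_mod_cast hg.ne'
  obtain ⟨y, rfl⟩ : g ∣ Y := (Int.pow_dvd_pow_iff (n := 2) (by norm_num)).mp
    ⟨x ^ 2 + 9 * z ^ 2, by rw [← h1, hX', hZ']; ring⟩
  obtain ⟨w, rfl⟩ : g ∣ W := (Int.pow_dvd_pow_iff (n := 2) (by norm_num)).mp
    ⟨x ^ 2 - 16 * z ^ 2, by rw [← h2, hX', hZ']; ring⟩
  rw [hX', hZ'] at h1 h2
  have e1 : x ^ 2 + 9 * z ^ 2 = y ^ 2 :=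
    mul_left_cancel₀ (pow_ne_zero 2 hg0) (by linear_combination h1)
  have e2 : x ^ 2 - 16 * z ^ 2 = w ^ 2 :=
    mul_left_cancel₀ (pow_ne_zero 2 hg0) (by linear_combination h2)
  have hz : z ≠ 0 := fun h => hZ (by rw [hZ', h, zero_mul])
  have hw : w ≠ 0 := right_ne_zero_of_mul hW
  have hx : x ≠ 0 := by
    rintro rfl
    nlinarith [mul_self_pos.mpr hz, sq_nonneg w]
  have hy : y ≠ 0 := by
    rintro rfl
    nlinarith [mul_self_pos.mpr hx, sq_nonneg z]
  exact concordant_core |x|.natAbs |x| z |y| w rfl (abs_pos.mpr hx) (abs_pos.mpr hy)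
    (Int.isCoprime_iff_gcd_eq_one.mpr hxz).abs_left (by rw [sq_abs, sq_abs, e1])
    (by rw [sq_abs, e2]) hz hw

/-- The rational points of `Z² = t⁴ + 14t² + 625`. -/
lemma quartic_points {t Z : ℚ} (h : Z ^ 2 = t ^ 4 + 14 * t ^ 2 + 625) :
    t = 0 ∨ t = 5 ∨ t = -5 := by
  have hb : (t.den : ℚ) ≠ 0 := by exact_mod_cast t.den_ne_zero
  obtain ⟨a, b, hab, hb0⟩ : ∃ a b : ℤ, t = (a : ℚ) / (b : ℚ) ∧ b ≠ 0 :=
    ⟨t.num, t.den, by push_cast; exact (Rat.num_div_den t).symm, by exact_mod_cast t.den_ne_zero⟩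
  have hb' : (b : ℚ) ≠ 0 := by exact_mod_cast hb0
  subst hab
  have hsq : IsSquare ((a ^ 4 + 14 * a ^ 2 * b ^ 2 + 625 * b ^ 4 : ℤ) : ℚ) := by
    refine ⟨Z * (b : ℚ) ^ 2, ?_⟩
    push_cast
    field_simp at h
    linear_combination -h
  obtain ⟨c, hc⟩ := Rat.isSquare_intCast_iff.mp hsq
  rcases concordant (X := c) (Z := 2 * a * b) (Y := a ^ 2 + 25 * b ^ 2) (W := a ^ 2 - 25 * b ^ 2)
      (by linear_combination -hc) (by linear_combination -hc) with h0 | h0
  · left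
    have ha : a = 0 := by simpa [hb0] using h0
    simp [ha]
  · right
    have : (a - 5 * b) * (a + 5 * b) = 0 := by linear_combination h0
    rcases mul_eq_zero.mp this with e | e
    · left
      rw [show a = 5 * b by linarith]
      push_cast
      field_simp
    · right
      rw [show a = -(5 * b) by linarith]
      push_cast
      field_simp

end Fermat.Agent.ThreeFive
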